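import Mathlib
import Fermat.Agent.LT.T7.H159.SplitIntL

/-!
# Row LT, tower T7, leaf C2.7.13.3 `LocEqSplitC340` (helper662): the OPEN CHAIN

OFF-MAIN.  Mathlib + the asset of helper159 (`iterL159`, `convL159`, `prodFrom159`).  Complete
proofs, nothing assumed.

`chain662 Φ δ n a x b = Φ 0 (a⁻¹ δ_0 x_0) Φ 1 (x_0⁻¹ δ_1 x_1) ⋯ Φ n (x_{n-1}⁻¹ δ_n b)`
for `x : Fin n → H`, defined by peeling the LAST variable (the shape of `iterL159`), and the
cyclic product of `splitInt340` is `chain662 Φ δ n (y 0) (y ∘ succ) (y 0)`.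
-/

set_option autoImplicit false

noncomputable section

namespace Fermat.Agent.LT.T7.H662

variable {H : Type} [Group H]

/-- The open chain `Φ 0 (a⁻¹ δ_0 x_0) Φ 1 (x_0⁻¹ δ_1 x_1) ⋯ Φ n (x_{n-1}⁻¹ δ_n b)`. -/
def chain662 (Φ : ℕ → H → ℂ) (δ : ℕ → H) : (n : ℕ) → H → (Fin n → H) → H → ℂ
  | 0, a, _, b => Φ 0 (a⁻¹ * δ 0 * b)
  | (n + 1), a, x, b =>
      chain662 Φ δ n a (fun j => x ((Fin.last n).succAbove j)) (x (Fin.last n))
        * Φ (n + 1) ((x (Fin.last n))⁻¹ * δ (n + 1) * b)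

theorem chain662_zero (Φ : ℕ → H → ℂ) (δ : ℕ → H) (a : H) (x : Fin 0 → H) (b : H) :
    chain662 Φ δ 0 a x b = Φ 0 (a⁻¹ * δ 0 * b) := rfl

theorem chain662_succ (Φ : ℕ → H → ℂ) (δ : ℕ → H) (n : ℕ) (a : H) (x : Fin (n + 1) → H)
    (b : H) :
    chain662 Φ δ (n + 1) a x b
      = chain662 Φ δ n a (fun j => x ((Fin.last n).succAbove j)) (x (Fin.last n))
        * Φ (n + 1) ((x (Fin.last n))⁻¹ * δ (n + 1) * b) := rfl

/-- The chain of the norms is the norm of the chain. -/
theorem norm_chain662 (Φ : ℕ → H → ℂ) (δ : ℕ → H) (n : ℕ) (a : H) (x : Fin n → H) (b : H) :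
    chain662 (fun j g => ((‖Φ j g‖ : ℝ) : ℂ)) δ n a x b = ((‖chain662 Φ δ n a x b‖ : ℝ) : ℂ) := by
  induction n generalizing b with
  | zero => rfl
  | succ n ih =>
    rw [chain662_succ, chain662_succ, ih, norm_mul, Complex.ofReal_mul]

/-- The open product along `P 0, P 1, …, P (n+1)` is the chain. -/
theorem prod_open662 (Φ : ℕ → H → ℂ) (δ : ℕ → H) (n : ℕ) (P : Fin (n + 2) → H) :
    ∏ j : Fin (n + 1), Φ j.1 ((P j.castSucc)⁻¹ * δ j.1 * P j.succ)
      = chain662 Φ δ n (P 0) (fun j : Fin n => P j.succ.castSucc) (P (Fin.last (n + 1))) := by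
  induction n with
  | zero =>
    rw [Fin.prod_univ_one, chain662_zero]
    rfl
  | succ n ih =>
    rw [Fin.prod_univ_castSucc, chain662_succ]
    have h := ih (fun j : Fin (n + 2) => P j.castSucc)
    have e1 : ∀ j : Fin (n + 1),
        Φ (j.castSucc : Fin (n + 2)).1
            ((P (j.castSucc : Fin (n + 2)).castSucc)⁻¹ * δ (j.castSucc : Fin (n + 2)).1
              * P (j.castSucc : Fin (n + 2)).succ)
          = Φ j.1 ((P (j.castSucc : Fin (n + 2)).castSucc)⁻¹ * δ j.1
              * P (j.succ : Fin (n + 2)).castSucc) := by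
      intro j
      rw [Fin.succ_castSucc]
      rfl
    rw [Finset.prod_congr rfl (fun j _ => e1 j), h]
    have e2 : (fun j : Fin n => P ((j.succ : Fin (n + 1)).castSucc : Fin (n + 2)).castSucc)
        = fun j : Fin n => P (((Fin.last n).succAbove j).succ : Fin (n + 2)).castSucc := by
      funext j
      rw [Fin.succAbove_last, Fin.succ_castSucc]
    have e3 : P ((Fin.last (n + 1) : Fin (n + 2)).castSucc)
        = P ((Fin.last n).succ : Fin (n + 2)).castSucc := by
      rw [Fin.succ_last]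
    have e4 : (Fin.last (n + 1) : Fin (n + 2)).succ = Fin.last (n + 2) := Fin.succ_last _
    rw [e2, e3, e4]
    rfl

/-- The cyclic successor, as in `splitInt340` (same formula). -/
def cyc662 {l : ℕ} (j : Fin l) : Fin l := ⟨(j.1 + 1) % l, Nat.mod_lt _ j.pos⟩

/-- **The cyclic product is the chain with both end points `y 0`.** -/
theorem prod_cyc662 (Φ : ℕ → H → ℂ) (δ : ℕ → H) (n : ℕ) (y : Fin (n + 1) → H) :
    ∏ j : Fin (n + 1), Φ j.1 ((y j)⁻¹ * δ j.1 * y (cyc662 j))
      = chain662 Φ δ n (y 0) (fun j : Fin n => y ((0 : Fin (n + 1)).succAbove j)) (y 0) := by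
  have h := prod_open662 Φ δ n (Fin.snoc y (y 0) : Fin (n + 2) → H)
  have e1 : ∀ j : Fin (n + 1),
      Φ j.1 (((Fin.snoc y (y 0) : Fin (n + 2) → H) j.castSucc)⁻¹ * δ j.1
          * (Fin.snoc y (y 0) : Fin (n + 2) → H) j.succ)
        = Φ j.1 ((y j)⁻¹ * δ j.1 * y (cyc662 j)) := by
    intro j
    have a1 : (Fin.snoc y (y 0) : Fin (n + 2) → H) j.castSucc = y j :=
      Fin.snoc_castSucc (α := fun _ => H) _ _ _
    have a2 : (Fin.snoc y (y 0) : Fin (n + 2) → H) j.succ = y (cyc662 j) := by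
      rcases Fin.eq_castSucc_or_eq_last j with ⟨j', rfl⟩ | rfl
      · have : (j'.castSucc : Fin (n + 1)).succ = (j'.succ : Fin (n + 1)).castSucc :=
          Fin.succ_castSucc j'
        rw [this]
        have a3 : (Fin.snoc y (y 0) : Fin (n + 2) → H) (j'.succ : Fin (n + 1)).castSucc
            = y j'.succ := Fin.snoc_castSucc (α := fun _ => H) _ _ _
        rw [a3]
        congr 1
        apply Fin.ext
        show j'.1 + 1 = (j'.1 + 1) % (n + 1)
        rw [Nat.mod_eq_of_lt (Nat.succ_lt_succ j'.2)]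
      · rw [Fin.succ_last]
        have a3 : (Fin.snoc y (y 0) : Fin (n + 2) → H) (Fin.last (n + 1)) = y 0 :=
          Fin.snoc_last (α := fun _ => H) _ _
        rw [a3]
        congr 1
        apply Fin.ext
        show (0 : ℕ) = (n + 1) % (n + 1)
        rw [Nat.mod_self]
    rw [a1, a2]
  rw [← Finset.prod_congr rfl (fun j _ => e1 j), h]
  have b1 : (Fin.snoc y (y 0) : Fin (n + 2) → H) 0 = y 0 := by
    have : (0 : Fin (n + 2)) = (0 : Fin (n + 1)).castSucc := rfl
    rw [this]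
    exact Fin.snoc_castSucc (α := fun _ => H) _ _ _
  have b2 : (fun j : Fin n => (Fin.snoc y (y 0) : Fin (n + 2) → H) (j.succ : Fin (n + 1)).castSucc)
      = fun j : Fin n => y ((0 : Fin (n + 1)).succAbove j) := by
    funext j
    rw [Fin.succAbove_zero]
    exact Fin.snoc_castSucc (α := fun _ => H) _ _ _
  have b3 : (Fin.snoc y (y 0) : Fin (n + 2) → H) (Fin.last (n + 1)) = y 0 :=
    Fin.snoc_last (α := fun _ => H) _ _
  rw [b1, b2, b3]

/-! ## Appendix: the equation lemmas of the definitions of this file are realised HERE -/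

theorem eqns_realised_chain662 : True := by
  have _a1 := @chain662.eq_1
  have _a2 := @chain662.eq_2
  have _a3 := @chain662.eq_def
  have _a4 := @chain662.eq_unfold
  have _b1 := @cyc662.eq_1
  have _b2 := @cyc662.eq_def
  have _b3 := @cyc662.eq_unfold
  trivial

end Fermat.Agent.LT.T7.H662

end
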