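import Mathlib
import Fermat.Agent.LT.T7.H159.SplitIntL
import Fermat.Agent.LT.T7.H662.Chain

/-!
# Row LT, tower T7, leaf C2.7.13.3 `LocEqSplitC340` (helper662): FUBINI ALONG THE CHAIN

OFF-MAIN.  Mathlib + the asset of helper159.  Complete proofs, nothing assumed.

`H` a second countable Hausdorff topological group with its Borel `σ`-algebra, `μ` a `σ`-finite
left invariant measure.  For functions `Φ j` which are measurable, bounded and integrable
(`IsGood662`):

* `isGood_convL662`  : the left nested convolutions `convL159 μ Φ n` are again good;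
* `chain_integral662`: the chain is integrable on `H^n` and its integral is `iterL159`;
* `split_fubini662`  : the SPLIT INTEGRAL (the shape of `splitInt340`) is the integral over `y₀`
  of `convL159 μ Φ (l-1) (y₀⁻¹ (δ_0 ⋯ δ_{l-1}) y₀) β(y₀)`, PROVIDED the latter is integrable for
  the functions `‖Φ j‖`.
-/

set_option autoImplicit false
set_option linter.unusedSectionVars false

open MeasureTheory

noncomputable section

namespace Fermat.Agent.LT.T7.H662

open Fermat.Agent.LT.T6 Fermat.Agent.LT.T7.H159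

variable {H : Type} [Group H] [TopologicalSpace H] [IsTopologicalGroup H]
  [SecondCountableTopology H] [T2Space H] [MeasurableSpace H] [BorelSpace H]

/-- Measurable, bounded, integrable. -/
structure IsGood662 (μ : Measure H) (Φ : H → ℂ) : Prop where
  meas : Measurable Φ
  bdd : ∃ M : ℝ, ∀ x, ‖Φ x‖ ≤ M
  int : Integrable Φ μ

theorem IsGood662.norm {μ : Measure H} {Φ : H → ℂ} (h : IsGood662 μ Φ) :
    IsGood662 μ (fun g => ((‖Φ g‖ : ℝ) : ℂ)) where
  meas := Complex.measurable_ofReal.comp h.meas.norm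
  bdd := by
    obtain ⟨M, hM⟩ := h.bdd
    refine ⟨M, fun x => ?_⟩
    rw [Complex.norm_real, norm_norm]
    exact hM x
  int := h.int.norm.ofReal

theorem convInt_apply662 (μ : Measure H) (g Φ : H → ℂ) (x : H) :
    convInt μ g Φ x = ∫ h, g h * Φ (h⁻¹ * x) ∂μ := rfl

theorem convL_zero662 (μ : Measure H) (Φ : ℕ → H → ℂ) : convL159 μ Φ 0 = Φ 0 := rfl

theorem convL_succ662 (μ : Measure H) (Φ : ℕ → H → ℂ) (n : ℕ) :
    convL159 μ Φ (n + 1) = convInt μ (convL159 μ Φ n) (Φ (n + 1)) := rfl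

theorem iterL_succ662 (μ : Measure H) (Φ : ℕ → H → ℂ) (δ : ℕ → H) (n : ℕ) (a b : H) :
    iterL159 μ Φ δ (n + 1) a b
      = ∫ x, iterL159 μ Φ δ n a x * Φ (n + 1) (x⁻¹ * δ (n + 1) * b) ∂μ := rfl

theorem iterL_zero662 (μ : Measure H) (Φ : ℕ → H → ℂ) (δ : ℕ → H) (a b : H) :
    iterL159 μ Φ δ 0 a b = Φ 0 (a⁻¹ * δ 0 * b) := rfl

section Conv

variable (μ : Measure H) [SigmaFinite μ] [μ.IsMulLeftInvariant]

theorem measurable_convKer662 {g Φ : H → ℂ} (hg : Measurable g) (hΦ : Measurable Φ) :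
    Measurable (fun p : H × H => g p.1 * Φ (p.1⁻¹ * p.2)) :=
  (hg.comp measurable_fst).mul (hΦ.comp (measurable_fst.inv.mul measurable_snd))

theorem integrable_convKer662 {g Φ : H → ℂ} (hg : IsGood662 μ g) (hΦ : IsGood662 μ Φ) :
    Integrable (fun p : H × H => g p.1 * Φ (p.1⁻¹ * p.2)) (μ.prod μ) := by
  have h1 : Integrable (fun p : H × H => g p.1 * Φ p.2) (μ.prod μ) := hg.int.mul_prod hΦ.int
  have hmp := measurePreserving_prod_inv_mul μ μ
  exact (hmp.integrable_comp h1.aestronglyMeasurable).2 h1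

/-- The convolution of two good functions is good. -/
theorem isGood_conv662 {g Φ : H → ℂ} (hg : IsGood662 μ g) (hΦ : IsGood662 μ Φ) :
    IsGood662 μ (convInt μ g Φ) where
  meas := by
    have h := (measurable_convKer662 hg.meas hΦ.meas).stronglyMeasurable
    exact (h.integral_prod_left (μ := μ)).measurable
  bdd := by
    obtain ⟨M, hM⟩ := hΦ.bdd
    refine ⟨(∫ h, ‖g h‖ ∂μ) * M, fun x => ?_⟩
    rw [convInt_apply662]
    have hb : ∀ h : H, ‖g h * Φ (h⁻¹ * x)‖ ≤ ‖g h‖ * M := fun h => by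
      rw [norm_mul]
      exact mul_le_mul_of_nonneg_left (hM _) (norm_nonneg _)
    calc ‖∫ h, g h * Φ (h⁻¹ * x) ∂μ‖ ≤ ∫ h, ‖g h‖ * M ∂μ :=
          norm_integral_le_of_norm_le (hg.int.norm.mul_const M) (Filter.Eventually.of_forall hb)
      _ = (∫ h, ‖g h‖ ∂μ) * M := integral_mul_const _ _
  int := (integrable_convKer662 μ hg hΦ).integral_prod_right

theorem isGood_convL662 {Φ : ℕ → H → ℂ} (hΦ : ∀ j, IsGood662 μ (Φ j)) (n : ℕ) :
    IsGood662 μ (convL159 μ Φ n) := by
  induction n with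
  | zero => exact hΦ 0
  | succ n ih =>
    rw [convL_succ662]
    exact isGood_conv662 μ ih (hΦ (n + 1))

end Conv

/-- The chain is jointly measurable. -/
theorem measurable_chain662 {Φ : ℕ → H → ℂ} (hΦ : ∀ j, Measurable (Φ j)) (δ : ℕ → H) (n : ℕ) :
    Measurable (fun p : H × (Fin n → H) × H => chain662 Φ δ n p.1 p.2.1 p.2.2) := by
  induction n with
  | zero =>
    exact (hΦ 0).comp
      ((measurable_fst.inv.mul measurable_const).mul (measurable_snd.comp measurable_snd))
  | succ n ih =>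
    have hlast : Measurable (fun p : H × (Fin (n + 1) → H) × H => p.2.1 (Fin.last n)) :=
      (measurable_pi_apply _).comp (measurable_fst.comp measurable_snd)
    have hinit : Measurable (fun p : H × (Fin (n + 1) → H) × H =>
        (fun j : Fin n => p.2.1 ((Fin.last n).succAbove j))) :=
      measurable_pi_lambda _ fun j =>
        (measurable_pi_apply _).comp (measurable_fst.comp measurable_snd)
    have h1 : Measurable (fun p : H × (Fin (n + 1) → H) × H =>
        chain662 Φ δ n p.1 (fun j : Fin n => p.2.1 ((Fin.last n).succAbove j))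
          (p.2.1 (Fin.last n))) :=
      ih.comp (measurable_fst.prodMk (hinit.prodMk hlast))
    have h2 : Measurable (fun p : H × (Fin (n + 1) → H) × H =>
        Φ (n + 1) ((p.2.1 (Fin.last n))⁻¹ * δ (n + 1) * p.2.2)) :=
      (hΦ (n + 1)).comp
        ((hlast.inv.mul measurable_const).mul (measurable_snd.comp measurable_snd))
    exact h1.mul h2

section Main

variable (μ : Measure H) [SigmaFinite μ] [μ.IsMulLeftInvariant]

/-- **Fubini along the chain**: the chain is integrable and its integral is `iterL159`. -/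
theorem chain_integral662 (δ : ℕ → H) (n : ℕ) :
    ∀ (Φ : ℕ → H → ℂ), (∀ j, IsGood662 μ (Φ j)) → ∀ a b : H,
      Integrable (fun x : Fin n → H => chain662 Φ δ n a x b) (Measure.pi fun _ : Fin n => μ) ∧
        ∫ x : Fin n → H, chain662 Φ δ n a x b ∂(Measure.pi fun _ : Fin n => μ)
          = iterL159 μ Φ δ n a b := by
  induction n with
  | zero =>
    intro Φ _ a b
    have hpi : (Measure.pi fun _ : Fin 0 => μ) = Measure.dirac (fun _ => (1 : H)) :=
      Measure.pi_of_empty _ _
    have hc : (fun x : Fin 0 → H => chain662 Φ δ 0 a x b) = fun _ => Φ 0 (a⁻¹ * δ 0 * b) := rfl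
    rw [hc, hpi]
    refine ⟨integrable_const _, ?_⟩
    rw [integral_const, iterL_zero662]
    simp
  | succ n ih =>
    intro Φ hΦ a b
    have hΦn : ∀ j, IsGood662 μ (fun g => ((‖Φ j g‖ : ℝ) : ℂ)) := fun j => (hΦ j).norm
    set π : Measure (Fin n → H) := Measure.pi fun _ : Fin n => μ with hπ
    -- the function on `H × H^n`
    set f : H × (Fin n → H) → ℂ :=
      fun p => chain662 Φ δ n a p.2 p.1 * Φ (n + 1) (p.1⁻¹ * δ (n + 1) * b) with hf
    have hfm : Measurable f := by
      have h1 : Measurable (fun p : H × (Fin n → H) => chain662 Φ δ n a p.2 p.1) :=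
        (measurable_chain662 (fun j => (hΦ j).meas) δ n).comp
          (measurable_const.prodMk (measurable_snd.prodMk measurable_fst))
      have h2 : Measurable (fun p : H × (Fin n → H) => Φ (n + 1) (p.1⁻¹ * δ (n + 1) * b)) :=
        (hΦ (n + 1)).meas.comp ((measurable_fst.inv.mul measurable_const).mul measurable_const)
      exact h1.mul h2
    -- the inner integral of the norm
    have hnorm : ∀ t : H, ∫ x : Fin n → H, ‖chain662 Φ δ n a x t‖ ∂π
        = (convL159 μ (fun j g => ((‖Φ j g‖ : ℝ) : ℂ)) n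
            (a⁻¹ * prodFrom159 δ (n + 1) 0 * t)).re := by
      intro t
      have h1 := (ih (fun j g => ((‖Φ j g‖ : ℝ) : ℂ)) hΦn a t).2
      rw [iterL_eq159] at h1
      rw [← h1]
      have h2 : (fun x : Fin n → H => chain662 (fun j g => ((‖Φ j g‖ : ℝ) : ℂ)) δ n a x t)
          = fun x : Fin n → H => ((‖chain662 Φ δ n a x t‖ : ℝ) : ℂ) := by
        funext x
        exact norm_chain662 Φ δ n a x t
      rw [h2, integral_complex_ofReal, Complex.ofReal_re]
    have hfi : Integrable f (μ.prod π) := by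
      rw [integrable_prod_iff hfm.aestronglyMeasurable]
      constructor
      · refine Filter.Eventually.of_forall fun t => ?_
        show Integrable (fun x : Fin n → H =>
          chain662 Φ δ n a x t * Φ (n + 1) (t⁻¹ * δ (n + 1) * b)) π
        exact (ih Φ hΦ a t).1.mul_const _
      · have e : (fun t : H => ∫ x : Fin n → H, ‖f (t, x)‖ ∂π)
            = fun t : H => (convL159 μ (fun j g => ((‖Φ j g‖ : ℝ) : ℂ)) n
                (a⁻¹ * prodFrom159 δ (n + 1) 0 * t)).re
              * ‖Φ (n + 1) (t⁻¹ * δ (n + 1) * b)‖ := by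
          funext t
          have : (fun x : Fin n → H => ‖f (t, x)‖)
              = fun x : Fin n → H => ‖chain662 Φ δ n a x t‖
                  * ‖Φ (n + 1) (t⁻¹ * δ (n + 1) * b)‖ := by
            funext x
            exact norm_mul _ _
          rw [this, integral_mul_const, hnorm t]
        rw [e]
        have hG := isGood_convL662 μ hΦn n
        have h1 : Integrable (fun t : H => (convL159 μ (fun j g => ((‖Φ j g‖ : ℝ) : ℂ)) n
            (a⁻¹ * prodFrom159 δ (n + 1) 0 * t)).re) μ :=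
          (hG.int.comp_mul_left (a⁻¹ * prodFrom159 δ (n + 1) 0)).re
        obtain ⟨M, hM⟩ := (hΦ (n + 1)).bdd
        have h2 : Measurable (fun t : H => ‖Φ (n + 1) (t⁻¹ * δ (n + 1) * b)‖) :=
          ((hΦ (n + 1)).meas.comp
            ((measurable_inv.mul measurable_const).mul measurable_const)).norm
        refine h1.mul_bdd (c := M) h2.aestronglyMeasurable
          (Filter.Eventually.of_forall fun t => ?_)
        rw [Real.norm_eq_abs, abs_of_nonneg (norm_nonneg _)]
        exact hM _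
    have hmp := measurePreserving_piFinSuccAbove (fun _ : Fin (n + 1) => μ) (Fin.last n)
    have hcomp : (fun x : Fin (n + 1) → H => chain662 Φ δ (n + 1) a x b)
        = f ∘ (MeasurableEquiv.piFinSuccAbove (fun _ : Fin (n + 1) => H) (Fin.last n)) := rfl
    constructor
    · rw [hcomp]
      exact (hmp.integrable_comp_emb
        (MeasurableEquiv.measurableEmbedding _)).2 hfi
    · rw [hcomp]
      have h1 := hmp.integral_comp' (f := MeasurableEquiv.piFinSuccAbove
        (fun _ : Fin (n + 1) => H) (Fin.last n)) f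
      rw [show (∫ x, (f ∘ (MeasurableEquiv.piFinSuccAbove (fun _ : Fin (n + 1) => H)
          (Fin.last n))) x ∂(Measure.pi fun _ : Fin (n + 1) => μ))
          = ∫ y, f y ∂(μ.prod π) from h1]
      rw [integral_prod f hfi, iterL_succ662]
      refine integral_congr_ae (Filter.Eventually.of_forall fun t => ?_)
      show ∫ x : Fin n → H, chain662 Φ δ n a x t * Φ (n + 1) (t⁻¹ * δ (n + 1) * b) ∂π
        = iterL159 μ Φ δ n a t * Φ (n + 1) (t⁻¹ * δ (n + 1) * b)
      rw [integral_mul_const, (ih Φ hΦ a t).2]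

/-- **THE SPLIT INTEGRAL** (the shape of `splitInt340`, `l = n + 1`). -/
theorem split_fubini_succ662 (Φ : ℕ → H → ℂ) (hΦ : ∀ j, IsGood662 μ (Φ j)) (δ : ℕ → H) (n : ℕ)
    (β : H → ℝ) (hβ : Measurable β)
    (hI : Integrable (fun y : H => convL159 μ (fun j g => ((‖Φ j g‖ : ℝ) : ℂ)) n
      (y⁻¹ * prodFrom159 δ (n + 1) 0 * y) * ((β y : ℝ) : ℂ)) μ) :
    ∫ y : Fin (n + 1) → H,
        (∏ j : Fin (n + 1), Φ j.1 ((y j)⁻¹ * δ j.1 * y (cyc662 j))) * ((β (y 0) : ℝ) : ℂ)
        ∂(Measure.pi fun _ : Fin (n + 1) => μ)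
      = ∫ y : H, convL159 μ Φ n (y⁻¹ * prodFrom159 δ (n + 1) 0 * y) * ((β y : ℝ) : ℂ) ∂μ := by
  have hΦn : ∀ j, IsGood662 μ (fun g => ((‖Φ j g‖ : ℝ) : ℂ)) := fun j => (hΦ j).norm
  set π : Measure (Fin n → H) := Measure.pi fun _ : Fin n => μ with hπ
  set f : H × (Fin n → H) → ℂ :=
    fun p => chain662 Φ δ n p.1 p.2 p.1 * ((β p.1 : ℝ) : ℂ) with hf
  have hfm : Measurable f := by
    have h1 : Measurable (fun p : H × (Fin n → H) => chain662 Φ δ n p.1 p.2 p.1) :=
      (measurable_chain662 (fun j => (hΦ j).meas) δ n).comp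
        (measurable_fst.prodMk (measurable_snd.prodMk measurable_fst))
    exact h1.mul (Complex.measurable_ofReal.comp (hβ.comp measurable_fst))
  have hnorm : ∀ t : H, ((∫ x : Fin n → H, ‖chain662 Φ δ n t x t‖ ∂π : ℝ) : ℂ)
      = convL159 μ (fun j g => ((‖Φ j g‖ : ℝ) : ℂ)) n (t⁻¹ * prodFrom159 δ (n + 1) 0 * t) := by
    intro t
    have h1 := (chain_integral662 μ δ n (fun j g => ((‖Φ j g‖ : ℝ) : ℂ)) hΦn t t).2
    rw [iterL_eq159] at h1
    rw [← h1]
    have h2 : (fun x : Fin n → H => chain662 (fun j g => ((‖Φ j g‖ : ℝ) : ℂ)) δ n t x t)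
        = fun x : Fin n → H => ((‖chain662 Φ δ n t x t‖ : ℝ) : ℂ) := by
      funext x
      exact norm_chain662 Φ δ n t x t
    rw [h2, integral_complex_ofReal]
  have hfi : Integrable f (μ.prod π) := by
    rw [integrable_prod_iff hfm.aestronglyMeasurable]
    constructor
    · refine Filter.Eventually.of_forall fun t => ?_
      show Integrable (fun x : Fin n → H => chain662 Φ δ n t x t * ((β t : ℝ) : ℂ)) π
      exact (chain_integral662 μ δ n Φ hΦ t t).1.mul_const _
    · have e : (fun t : H => ∫ x : Fin n → H, ‖f (t, x)‖ ∂π)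
          = fun t : H => ‖convL159 μ (fun j g => ((‖Φ j g‖ : ℝ) : ℂ)) n
              (t⁻¹ * prodFrom159 δ (n + 1) 0 * t) * ((β t : ℝ) : ℂ)‖ := by
        funext t
        have : (fun x : Fin n → H => ‖f (t, x)‖)
            = fun x : Fin n → H => ‖chain662 Φ δ n t x t‖ * ‖((β t : ℝ) : ℂ)‖ := by
          funext x
          exact norm_mul _ _
        have hr : 0 ≤ ∫ x : Fin n → H, ‖chain662 Φ δ n t x t‖ ∂π :=
          integral_nonneg fun x => norm_nonneg _
        have e1 : ‖((∫ x : Fin n → H, ‖chain662 Φ δ n t x t‖ ∂π : ℝ) : ℂ)‖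
            = ∫ x : Fin n → H, ‖chain662 Φ δ n t x t‖ ∂π := by
          rw [Complex.norm_real, Real.norm_eq_abs, abs_of_nonneg hr]
        rw [this, integral_mul_const, norm_mul, ← hnorm t, e1]
      rw [e]
      exact hI.norm
  have hmp := measurePreserving_piFinSuccAbove (fun _ : Fin (n + 1) => μ) (0 : Fin (n + 1))
  have hcomp : (fun y : Fin (n + 1) → H =>
      (∏ j : Fin (n + 1), Φ j.1 ((y j)⁻¹ * δ j.1 * y (cyc662 j))) * ((β (y 0) : ℝ) : ℂ))
      = f ∘ (MeasurableEquiv.piFinSuccAbove (fun _ : Fin (n + 1) => H) (0 : Fin (n + 1))) := by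
    funext y
    rw [prod_cyc662]
    rfl
  rw [hcomp]
  have h1 := hmp.integral_comp' (f := MeasurableEquiv.piFinSuccAbove
    (fun _ : Fin (n + 1) => H) (0 : Fin (n + 1))) f
  rw [show (∫ x, (f ∘ (MeasurableEquiv.piFinSuccAbove (fun _ : Fin (n + 1) => H)
      (0 : Fin (n + 1)))) x ∂(Measure.pi fun _ : Fin (n + 1) => μ))
      = ∫ y, f y ∂(μ.prod π) from h1]
  rw [integral_prod f hfi]
  refine integral_congr_ae (Filter.Eventually.of_forall fun t => ?_)
  show ∫ x : Fin n → H, chain662 Φ δ n t x t * ((β t : ℝ) : ℂ) ∂π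
    = convL159 μ Φ n (t⁻¹ * prodFrom159 δ (n + 1) 0 * t) * ((β t : ℝ) : ℂ)
  rw [integral_mul_const, (chain_integral662 μ δ n Φ hΦ t t).2, iterL_eq159]

/-- **THE SPLIT INTEGRAL**, general `l > 0`. -/
theorem split_fubini662 (Φ : ℕ → H → ℂ) (hΦ : ∀ j, IsGood662 μ (Φ j)) (δ : ℕ → H) (l : ℕ)
    (hl : 0 < l) (β : H → ℝ) (hβ : Measurable β)
    (hI : Integrable (fun y : H => convL159 μ (fun j g => ((‖Φ j g‖ : ℝ) : ℂ)) (l - 1)
      (y⁻¹ * prodFrom159 δ l 0 * y) * ((β y : ℝ) : ℂ)) μ) :
    ∫ y : Fin l → H,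
        (∏ j : Fin l, Φ j.1 ((y j)⁻¹ * δ j.1 * y (cyc662 j))) * ((β (y ⟨0, hl⟩) : ℝ) : ℂ)
        ∂(Measure.pi fun _ : Fin l => μ)
      = ∫ y : H, convL159 μ Φ (l - 1) (y⁻¹ * prodFrom159 δ l 0 * y) * ((β y : ℝ) : ℂ) ∂μ := by
  obtain ⟨n, rfl⟩ : ∃ n, l = n + 1 := ⟨l - 1, by omega⟩
  exact split_fubini_succ662 μ Φ hΦ δ n β hβ hI

end Main

end Fermat.Agent.LT.T7.H662

end
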