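import Mathlib
import Fermat.Agent.LT.T6.Spec
import Fermat.Agent.LT.T7.H159.SplitIntL
import Fermat.Agent.LT.T7.H584.ConvSumInt
import Fermat.Agent.LT.T7.H662.ChainFubini

/-!
# Row LT, tower T7, leaf C2.7.13.3 `LocEqSplitC340` (helper662): FUNCTIONS OF FINITE SUPPORT
# MODULO A COMPACT OPEN SUBGROUP

OFF-MAIN.  Mathlib + `T6/Spec` + the assets of helper159, helper584.  Complete proofs, nothing
assumed.

`H` a second countable Hausdorff topological group with its Borel `σ`-algebra, `U` a compact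
open subgroup, `μ` a left invariant measure with `μ U = 1`.

* `isGood_of_finSupp662`     : a right `U`-invariant function of finite support modulo `U` is
  measurable, bounded and integrable (`IsGood662`);
* `convL_biInv662`, `convL_finSupp662` : the left nested convolutions of bi-`U`-invariant
  functions of finite support modulo `U` are bi-`U`-invariant of finite support modulo `U`.
-/

set_option autoImplicit false
set_option linter.unusedSectionVars false

open MeasureTheory
open scoped Pointwise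

noncomputable section

namespace Fermat.Agent.LT.T7.H662

open Fermat.Agent.LT Fermat.Agent.LT.T6 Fermat.Agent.LT.T7.H159

variable {H : Type} [Group H] [TopologicalSpace H] [IsTopologicalGroup H]
  [SecondCountableTopology H] [T2Space H] [MeasurableSpace H] [BorelSpace H]

/-- The coset `x U` as a set. -/
def cosetSet662 (U : Subgroup H) (x : H) : Set H := {g | x⁻¹ * g ∈ U}

theorem mem_cosetSet662 (U : Subgroup H) (x g : H) : g ∈ cosetSet662 U x ↔ x⁻¹ * g ∈ U := Iff.rfl

theorem isOpen_cosetSet662 (U : Subgroup H) (hUo : IsOpen (U : Set H)) (x : H) :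
    IsOpen (cosetSet662 U x) :=
  hUo.preimage (continuous_const.mul continuous_id)

theorem self_mem_cosetSet662 (U : Subgroup H) (x : H) : x ∈ cosetSet662 U x := by
  show x⁻¹ * x ∈ U
  rw [inv_mul_cancel]
  exact U.one_mem

theorem cosetSet_eq_image662 (U : Subgroup H) (x : H) :
    cosetSet662 U x = (fun u => x * u) '' (U : Set H) := by
  ext g
  constructor
  · intro hg
    exact ⟨x⁻¹ * g, hg, mul_inv_cancel_left x g⟩
  · rintro ⟨u, hu, rfl⟩
    show x⁻¹ * (x * u) ∈ U
    rw [inv_mul_cancel_left]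
    exact hu

theorem isCompact_cosetSet662 (U : Subgroup H) (hUc : IsCompact (U : Set H)) (x : H) :
    IsCompact (cosetSet662 U x) := by
  rw [cosetSet_eq_image662]
  exact hUc.image (continuous_const.mul continuous_id)

theorem measure_cosetSet662 (U : Subgroup H) (μ : Measure H) [μ.IsMulLeftInvariant]
    (hμ : μ (U : Set H) = 1) (x : H) : μ (cosetSet662 U x) = 1 := by
  have : cosetSet662 U x = (fun g => x⁻¹ * g) ⁻¹' (U : Set H) := rfl
  rw [this, measure_preimage_mul, hμ]

/-- Right invariance from bi-invariance. -/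
theorem rightInv_of_biInv662 (U : Subgroup H) {φ : H → ℂ} (hφ : IsBiInv (fun g => g ∈ U) φ)
    (g u : H) (hu : u ∈ U) : φ (g * u) = φ g := by
  have := hφ 1 u g U.one_mem hu
  rwa [one_mul] at this

theorem leftInv_of_biInv662 (U : Subgroup H) {φ : H → ℂ} (hφ : IsBiInv (fun g => g ∈ U) φ)
    (g u : H) (hu : u ∈ U) : φ (u * g) = φ g := by
  have := hφ u 1 g hu U.one_mem
  rwa [mul_one] at this

/-- A right invariant function is continuous. -/
theorem continuous_of_rightInv662 (U : Subgroup H) (hUo : IsOpen (U : Set H)) {φ : H → ℂ}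
    (hφ : ∀ g u : H, u ∈ U → φ (g * u) = φ g) : Continuous φ := by
  apply IsLocallyConstant.continuous
  rw [IsLocallyConstant.iff_exists_open]
  intro x
  refine ⟨cosetSet662 U x, isOpen_cosetSet662 U hUo x, self_mem_cosetSet662 U x, ?_⟩
  intro g hg
  have := hφ x (x⁻¹ * g) hg
  rwa [mul_inv_cancel_left] at this

/-- The support of a function of finite support modulo `U` lies in a finite union of cosets. -/
theorem support_subset_of_finSupp662 (U : Subgroup H) {φ : H → ℂ} {F : Finset H}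
    (hF : ∀ g : H, φ g ≠ 0 → ∃ x ∈ F, ∃ u : H, u ∈ U ∧ g = x * u) :
    Function.support φ ⊆ ⋃ x ∈ F, cosetSet662 U x := by
  intro g hg
  obtain ⟨x, hx, u, hu, rfl⟩ := hF g hg
  refine Set.mem_biUnion hx ?_
  show x⁻¹ * (x * u) ∈ U
  rw [inv_mul_cancel_left]
  exact hu

/-- **A right invariant function of finite support modulo `U` is good.** -/
theorem isGood_of_finSupp662 (U : Subgroup H) (hUo : IsOpen (U : Set H)) (μ : Measure H)
    [μ.IsMulLeftInvariant] (hμ : μ (U : Set H) = 1) {φ : H → ℂ}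
    (hφ : ∀ g u : H, u ∈ U → φ (g * u) = φ g) (hfs : HasFinSupp (fun g => g ∈ U) φ) :
    IsGood662 μ φ := by
  classical
  obtain ⟨F, hF⟩ := hfs
  have hc := continuous_of_rightInv662 U hUo hφ
  have hb : ∀ g : H, ‖φ g‖ ≤ ∑ x ∈ F, ‖φ x‖ := by
    intro g
    by_cases hg : φ g = 0
    · rw [hg, norm_zero]
      exact Finset.sum_nonneg fun _ _ => norm_nonneg _
    · obtain ⟨x, hx, u, hu, rfl⟩ := hF g hg
      rw [hφ x u hu]
      exact Finset.single_le_sum (f := fun x => ‖φ x‖) (fun _ _ => norm_nonneg _) hx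
  refine ⟨hc.measurable, ⟨_, hb⟩, ?_⟩
  have hS : μ (⋃ x ∈ F, cosetSet662 U x) ≠ ⊤ := by
    refine ne_of_lt (lt_of_le_of_lt (measure_biUnion_finset_le F _) ?_)
    refine ENNReal.sum_lt_top.2 fun x _ => ?_
    rw [measure_cosetSet662 U μ hμ x]
    exact ENNReal.one_lt_top
  have h1 : IntegrableOn φ (⋃ x ∈ F, cosetSet662 U x) μ :=
    Measure.integrableOn_of_bounded hS hc.aestronglyMeasurable
      (Filter.Eventually.of_forall hb)
  exact (integrableOn_iff_integrable_of_support_subset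
    (support_subset_of_finSupp662 U hF)).1 h1

/-! ## Convolutions -/

theorem convInt_leftInv662 (U : Subgroup H) (μ : Measure H) [μ.IsMulLeftInvariant]
    {G Φ : H → ℂ} (hG : ∀ g u : H, u ∈ U → G (u * g) = G g) (x u : H) (hu : u ∈ U) :
    convInt μ G Φ (u * x) = convInt μ G Φ x := by
  show ∫ h, G h * Φ (h⁻¹ * (u * x)) ∂μ = ∫ h, G h * Φ (h⁻¹ * x) ∂μ
  have h := integral_mul_left_eq_self (μ := μ) (fun h => G h * Φ (h⁻¹ * (u * x))) u
  rw [← h]
  refine integral_congr_ae (Filter.Eventually.of_forall fun h' => ?_)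
  show G (u * h') * Φ ((u * h')⁻¹ * (u * x)) = G h' * Φ (h'⁻¹ * x)
  rw [hG h' u hu]
  congr 2
  group

theorem convL_leftInv662 (U : Subgroup H) (μ : Measure H) [μ.IsMulLeftInvariant]
    {Φ : ℕ → H → ℂ} (hΦ : ∀ j, IsBiInv (fun g => g ∈ U) (Φ j)) :
    ∀ (n : ℕ) (g u : H), u ∈ U → convL159 μ Φ n (u * g) = convL159 μ Φ n g
  | 0, g, u, hu => leftInv_of_biInv662 U (hΦ 0) g u hu
  | n + 1, g, u, hu =>
      convInt_leftInv662 U μ (fun g u hu => convL_leftInv662 U μ hΦ n g u hu) g u hu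

theorem convL_rightInv662 (U : Subgroup H) (μ : Measure H)
    {Φ : ℕ → H → ℂ} (hΦ : ∀ j, IsBiInv (fun g => g ∈ U) (Φ j)) (n : ℕ) (g u : H)
    (hu : u ∈ U) : convL159 μ Φ n (g * u) = convL159 μ Φ n g :=
  H584.convL_right_inv584 μ (U := fun g => g ∈ U) U.one_mem Φ hΦ n g u hu

/-- The left nested convolutions are bi-invariant. -/
theorem convL_biInv662 (U : Subgroup H) (μ : Measure H) [μ.IsMulLeftInvariant]
    {Φ : ℕ → H → ℂ} (hΦ : ∀ j, IsBiInv (fun g => g ∈ U) (Φ j)) (n : ℕ) :
    IsBiInv (fun g => g ∈ U) (convL159 μ Φ n) := by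
  intro u u' g hu hu'
  rw [convL_rightInv662 U μ hΦ n _ u' hu', convL_leftInv662 U μ hΦ n g u hu]

theorem support_convInt662 (μ : Measure H) {G Φ : H → ℂ} {A B : Set H}
    (hG : Function.support G ⊆ A) (hΦ : Function.support Φ ⊆ B) :
    Function.support (convInt μ G Φ) ⊆ A * B := by
  intro x hx
  by_contra hnot
  apply hx
  show ∫ h, G h * Φ (h⁻¹ * x) ∂μ = 0
  have h0 : ∀ h : H, G h * Φ (h⁻¹ * x) = 0 := by
    intro h
    by_contra hne
    have h1 : G h ≠ 0 := left_ne_zero_of_mul hne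
    have h2 : Φ (h⁻¹ * x) ≠ 0 := right_ne_zero_of_mul hne
    apply hnot
    exact ⟨h, hG h1, h⁻¹ * x, hΦ h2, mul_inv_cancel_left h x⟩
  simp only [h0, integral_zero]

/-- The supports of the left nested convolutions lie in compact sets. -/
theorem support_convL662 (μ : Measure H) {Φ : ℕ → H → ℂ}
    (hΦ : ∀ j, ∃ A : Set H, IsCompact A ∧ Function.support (Φ j) ⊆ A) (n : ℕ) :
    ∃ A : Set H, IsCompact A ∧ Function.support (convL159 μ Φ n) ⊆ A := by
  induction n with
  | zero => exact hΦ 0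
  | succ n ih =>
    obtain ⟨A, hA, hsA⟩ := ih
    obtain ⟨B, hB, hsB⟩ := hΦ (n + 1)
    exact ⟨A * B, hA.mul hB, support_convInt662 μ hsA hsB⟩

theorem compact_of_finSupp662 (U : Subgroup H) (hUc : IsCompact (U : Set H)) {φ : H → ℂ}
    (hfs : HasFinSupp (fun g => g ∈ U) φ) :
    ∃ A : Set H, IsCompact A ∧ Function.support φ ⊆ A := by
  obtain ⟨F, hF⟩ := hfs
  exact ⟨⋃ x ∈ F, cosetSet662 U x,
    F.isCompact_biUnion fun x _ => isCompact_cosetSet662 U hUc x,
    support_subset_of_finSupp662 U hF⟩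

theorem finSupp_of_compact662 (U : Subgroup H) (hUo : IsOpen (U : Set H)) {φ : H → ℂ}
    {A : Set H} (hA : IsCompact A) (hs : Function.support φ ⊆ A) :
    HasFinSupp (fun g => g ∈ U) φ := by
  obtain ⟨t, ht⟩ := hA.elim_finite_subcover (fun x : H => cosetSet662 U x)
    (fun x => isOpen_cosetSet662 U hUo x)
    (fun g _ => Set.mem_iUnion.2 ⟨g, self_mem_cosetSet662 U g⟩)
  refine ⟨t, fun g hg => ?_⟩
  have hgA : g ∈ A := hs hg
  obtain ⟨x, hx, hgx⟩ := Set.mem_iUnion₂.1 (ht hgA)
  exact ⟨x, hx, x⁻¹ * g, hgx, (mul_inv_cancel_left x g).symm⟩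

/-- The left nested convolutions have finite support modulo `U`. -/
theorem convL_finSupp662 (U : Subgroup H) (hUo : IsOpen (U : Set H))
    (hUc : IsCompact (U : Set H)) (μ : Measure H) {Φ : ℕ → H → ℂ}
    (hΦ : ∀ j, HasFinSupp (fun g => g ∈ U) (Φ j)) (n : ℕ) :
    HasFinSupp (fun g => g ∈ U) (convL159 μ Φ n) := by
  obtain ⟨A, hA, hs⟩ := support_convL662 μ (fun j => compact_of_finSupp662 U hUc (hΦ j)) n
  exact finSupp_of_compact662 U hUo hA hs

/-- The norm of a bi-invariant function of finite support is one. -/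
theorem biInv_norm662 (U : Subgroup H) {φ : H → ℂ} (hφ : IsBiInv (fun g => g ∈ U) φ) :
    IsBiInv (fun g => g ∈ U) (fun g => ((‖φ g‖ : ℝ) : ℂ)) := by
  intro u u' g hu hu'
  show ((‖φ (u * g * u')‖ : ℝ) : ℂ) = ((‖φ g‖ : ℝ) : ℂ)
  rw [hφ u u' g hu hu']

theorem finSupp_norm662 (U : Subgroup H) {φ : H → ℂ} (hφ : HasFinSupp (fun g => g ∈ U) φ) :
    HasFinSupp (fun g => g ∈ U) (fun g => ((‖φ g‖ : ℝ) : ℂ)) := by
  obtain ⟨F, hF⟩ := hφ
  refine ⟨F, fun g hg => hF g ?_⟩
  intro h0
  apply hg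
  show ((‖φ g‖ : ℝ) : ℂ) = 0
  rw [h0, norm_zero, Complex.ofReal_zero]

/-! ## Appendix: the equation lemmas of the definitions of this file are realised HERE -/

theorem eqns_realised_finSupp662 : True := by
  have _a1 := @cosetSet662.eq_1
  have _a2 := @cosetSet662.eq_def
  have _a3 := @cosetSet662.eq_unfold
  trivial

end Fermat.Agent.LT.T7.H662

end
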