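import Mathlib
import Fermat.Agent.LT.T5.Spec
import Fermat.Agent.LT.H415.AutVal
import Fermat.Agent.LT.T7.H159.SplitIntL

/-!
# Row LT, tower T7, leaf C2.7.13.3 `LocEqSplitC340` (helper662): THE NORM AT A SPLIT PLACE

OFF-MAIN.  Complete proofs, nothing assumed.  Asset: helper415 `valuation_sigma415`.

`v` a finite place of `K`, `w 0, w 1, …` places of `K'` with `w j = σ (w (j+1))`
(`T5.PlaceRel`), `i j : K_v ≃ K'_{w j}` compatible with the embeddings of `K` and with the
valuations.  In the coordinates of `K_v` (`e j = (i j)⁻¹ ∘ (K' → K'_{w j})`):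

    e j ∘ σ = e (j+1)                                   (`emb_sigma662`, by density of `K` in `K_v`)
    δ_0 δ_1 ⋯ δ_{l-1} = γ_v   for `N δ = γ`, `δ_j = e j (δ)`      (`prodFrom_eq662`)
-/

set_option autoImplicit false
set_option linter.unusedSectionVars false

open IsDedekindDomain NumberField

noncomputable section

namespace Fermat.Agent.LT.T7.H662

open Fermat.Agent.LT Fermat.Agent.LT.T7.H159

section GLmap

variable {A B C : Type} [CommRing A] [CommRing B] [CommRing C]

theorem glmap_apply662 (f : A →+* B) (g : GL (Fin 2) A) (a b : Fin 2) :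
    ((Matrix.GeneralLinearGroup.map f g : GL (Fin 2) B) : Matrix (Fin 2) (Fin 2) B) a b
      = f ((g : Matrix (Fin 2) (Fin 2) A) a b) := rfl

theorem glmap_congr662 {f f' : A →+* B} (h : ∀ x, f x = f' x) (g : GL (Fin 2) A) :
    Matrix.GeneralLinearGroup.map f g = Matrix.GeneralLinearGroup.map f' g := by
  apply Units.ext
  ext a b
  rw [glmap_apply662, glmap_apply662, h]

theorem glmap_glmap662 (f : A →+* B) (f' : B →+* C) (g : GL (Fin 2) A) :
    Matrix.GeneralLinearGroup.map f' (Matrix.GeneralLinearGroup.map f g)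
      = Matrix.GeneralLinearGroup.map (f'.comp f) g := by
  apply Units.ext
  ext a b
  rfl

end GLmap

variable {K K' : Type} [Field K] [NumberField K] [Field K'] [NumberField K'] [Algebra K K']

/-- The embedding `K' → K'_{w} ≃ K_v`. -/
def emb662 {v : HeightOneSpectrum (𝓞 K)} {w : HeightOneSpectrum (𝓞 K')}
    (i : v.adicCompletion K ≃+* w.adicCompletion K') : K' →+* v.adicCompletion K :=
  ((i.symm : w.adicCompletion K' ≃+* v.adicCompletion K) :
    w.adicCompletion K' →+* v.adicCompletion K).comp (algebraMap K' (w.adicCompletion K'))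

theorem emb662_apply {v : HeightOneSpectrum (𝓞 K)} {w : HeightOneSpectrum (𝓞 K')}
    (i : v.adicCompletion K ≃+* w.adicCompletion K') (y : K') :
    emb662 i y = i.symm (algebraMap K' (w.adicCompletion K') y) := rfl

theorem valued_symm662 {v : HeightOneSpectrum (𝓞 K)} {w : HeightOneSpectrum (𝓞 K')}
    (i : v.adicCompletion K ≃+* w.adicCompletion K')
    (hv : ∀ x : v.adicCompletion K, Valued.v (i x) = Valued.v x) (y : w.adicCompletion K') :
    Valued.v (i.symm y) = Valued.v y := by
  have h := hv (i.symm y)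
  rw [RingEquiv.apply_symm_apply] at h
  exact h.symm

theorem valued_emb662 {v : HeightOneSpectrum (𝓞 K)} {w : HeightOneSpectrum (𝓞 K')}
    (i : v.adicCompletion K ≃+* w.adicCompletion K')
    (hv : ∀ x : v.adicCompletion K, Valued.v (i x) = Valued.v x) (y : K') :
    Valued.v (emb662 i y) = w.valuation K' y := by
  rw [emb662_apply, valued_symm662 i hv]
  exact HeightOneSpectrum.valuedAdicCompletion_eq_valuation' w y

theorem emb_base662 {v : HeightOneSpectrum (𝓞 K)} {w : HeightOneSpectrum (𝓞 K')}
    (i : v.adicCompletion K ≃+* w.adicCompletion K')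
    (hi : ∀ x : K, i (algebraMap K (v.adicCompletion K) x)
      = algebraMap K' (w.adicCompletion K') (algebraMap K K' x)) (x : K) :
    emb662 i (algebraMap K K' x) = algebraMap K (v.adicCompletion K) x := by
  rw [emb662_apply, ← hi x, RingEquiv.symm_apply_apply]

/-- Density of `K` in `K_v`, in terms of the valuation. -/
theorem exists_close662 (v : HeightOneSpectrum (𝓞 K)) (a d : v.adicCompletion K) (hd : d ≠ 0) :
    ∃ x : K, Valued.v (a - algebraMap K (v.adicCompletion K) x) < Valued.v d := by
  have hdr := HeightOneSpectrum.denseRange_algebraMap K v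
  have hball : IsOpen {c : v.adicCompletion K | Valued.v c < Valued.v d} := by
    have h := Valued.isOpen_ball (v.adicCompletion K)
      ((Valued.v : Valuation (v.adicCompletion K) (WithZero (Multiplicative ℤ))).restrict d)
    convert h using 1
    ext c
    exact (Valuation.restrict_lt_iff
      (v := (Valued.v : Valuation (v.adicCompletion K) (WithZero (Multiplicative ℤ))))).symm
  have hopen : IsOpen {b : v.adicCompletion K | Valued.v (a - b) < Valued.v d} :=
    hball.preimage (continuous_const.sub continuous_id)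
  have hne : ({b : v.adicCompletion K | Valued.v (a - b) < Valued.v d}).Nonempty :=
    ⟨a, by
      show Valued.v (a - a) < Valued.v d
      rw [sub_self, map_zero]
      exact zero_lt_iff.2 ((Valuation.ne_zero_iff _).2 hd)⟩
  obtain ⟨x, hx⟩ := hdr.exists_mem_open hopen hne
  exact ⟨x, hx⟩

/-- **`e j ∘ σ = e (j+1)`**: two embeddings of `K'` in `K_v` over `K` which induce the same place
are equal. -/
theorem emb_eq_of_val662 {v : HeightOneSpectrum (𝓞 K)} (w : HeightOneSpectrum (𝓞 K'))
    (τ₁ τ₂ : K' →+* v.adicCompletion K)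
    (h₁ : ∀ y : K', Valued.v (τ₁ y) = w.valuation K' y)
    (h₂ : ∀ y : K', Valued.v (τ₂ y) = w.valuation K' y)
    (b₁ : ∀ x : K, τ₁ (algebraMap K K' x) = algebraMap K (v.adicCompletion K) x)
    (b₂ : ∀ x : K, τ₂ (algebraMap K K' x) = algebraMap K (v.adicCompletion K) x) (y : K') :
    τ₁ y = τ₂ y := by
  by_contra hne
  have hd : τ₁ y - τ₂ y ≠ 0 := sub_ne_zero.2 hne
  obtain ⟨x, hx⟩ := exists_close662 v (τ₂ y) (τ₁ y - τ₂ y) hd
  have e2 : τ₂ y - algebraMap K (v.adicCompletion K) x = τ₂ (y - algebraMap K K' x) := by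
    rw [map_sub, b₂]
  have e1 : τ₁ y - algebraMap K (v.adicCompletion K) x = τ₁ (y - algebraMap K K' x) := by
    rw [map_sub, b₁]
  have hx1 : Valued.v (τ₁ y - algebraMap K (v.adicCompletion K) x)
      < Valued.v (τ₁ y - τ₂ y) := by
    rw [e1, h₁, ← h₂, ← e2]
    exact hx
  have hsplit : τ₁ y - τ₂ y
      = (τ₁ y - algebraMap K (v.adicCompletion K) x)
        - (τ₂ y - algebraMap K (v.adicCompletion K) x) := by ring
  have hle := Valuation.map_sub (Valued.v : Valuation (v.adicCompletion K) _)
    (τ₁ y - algebraMap K (v.adicCompletion K) x) (τ₂ y - algebraMap K (v.adicCompletion K) x)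
  rw [← hsplit] at hle
  exact absurd hle (not_le.2 (max_lt hx1 hx))

section Split

variable (s : T5.AdelicAut K')
  (hfix : ∀ x : K, s.σ (algebraMap K K' x) = algebraMap K K' x)
  (v : HeightOneSpectrum (𝓞 K)) (w : ℕ → HeightOneSpectrum (𝓞 K'))
  (i : ∀ j : ℕ, v.adicCompletion K ≃+* (w j).adicCompletion K')
  (hrel : ∀ j : ℕ, T5.PlaceRel s (w (j + 1)) (w j))
  (hi : ∀ (j : ℕ) (x : K), i j (algebraMap K (v.adicCompletion K) x)
    = algebraMap K' ((w j).adicCompletion K') (algebraMap K K' x))
  (hv : ∀ (j : ℕ) (x : v.adicCompletion K), Valued.v (i j x) = Valued.v x)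

include hfix hrel hi hv in
theorem emb_sigma662 (j : ℕ) (y : K') : emb662 (i j) (s.σ y) = emb662 (i (j + 1)) y := by
  refine emb_eq_of_val662 (w (j + 1)) ((emb662 (i j)).comp (s.σ : K' →+* K')) (emb662 (i (j + 1)))
    ?_ ?_ ?_ ?_ y
  · intro z
    show Valued.v (emb662 (i j) (s.σ z)) = _
    rw [valued_emb662 (i j) (hv j)]
    exact H415.valuation_sigma415 s.σ (w (j + 1)) (w j) (hrel j) z
  · intro z
    exact valued_emb662 (i (j + 1)) (hv (j + 1)) z
  · intro x
    show emb662 (i j) (s.σ (algebraMap K K' x)) = _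
    rw [hfix, emb_base662 (i j) (hi j)]
  · intro x
    exact emb_base662 (i (j + 1)) (hi (j + 1)) x

theorem normUpTo_succ662 (n : ℕ) (δ : GL (Fin 2) K') :
    s.normUpTo (n + 1) δ = δ * s.onRat (s.normUpTo n δ) := rfl

theorem normUpTo_zero662 (δ : GL (Fin 2) K') : s.normUpTo 0 δ = 1 := rfl

theorem prodFrom_zero662 {H : Type} [Group H] (d : ℕ → H) (a : ℕ) : prodFrom159 d 0 a = 1 := rfl

theorem prodFrom_succ662 {H : Type} [Group H] (d : ℕ → H) (n a : ℕ) :
    prodFrom159 d (n + 1) a = d a * prodFrom159 d n (a + 1) := rfl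

include hfix hrel hi hv in
theorem map_normUpTo662 (δ : GL (Fin 2) K') (n : ℕ) :
    ∀ a : ℕ, Matrix.GeneralLinearGroup.map (emb662 (i a)) (s.normUpTo n δ)
      = prodFrom159 (fun j => Matrix.GeneralLinearGroup.map (emb662 (i j)) δ) n a := by
  induction n with
  | zero =>
    intro a
    rw [normUpTo_zero662, prodFrom_zero662, map_one]
  | succ n ih =>
    intro a
    rw [normUpTo_succ662, prodFrom_succ662, map_mul, ← ih (a + 1)]
    congr 1
    show Matrix.GeneralLinearGroup.map (emb662 (i a))
        (Matrix.GeneralLinearGroup.map (s.σ : K' →+* K') (s.normUpTo n δ)) = _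
    rw [glmap_glmap662]
    exact glmap_congr662 (fun y => emb_sigma662 s hfix v w i hrel hi hv a y) _

include hfix hrel hi hv in
/-- **The norm at a split place**: `δ_0 δ_1 ⋯ δ_{l-1} = γ_v`. -/
theorem prodFrom_eq662 (δ : GL (Fin 2) K') (γ : GL (Fin 2) K) (l : ℕ)
    (hN : s.normUpTo l δ = Matrix.GeneralLinearGroup.map (algebraMap K K') γ) :
    prodFrom159 (fun j => Matrix.GeneralLinearGroup.map
        (((i j).symm : (w j).adicCompletion K' ≃+* v.adicCompletion K) :
          (w j).adicCompletion K' →+* v.adicCompletion K)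
        (Matrix.GeneralLinearGroup.map (algebraMap K' ((w j).adicCompletion K')) δ)) l 0
      = Matrix.GeneralLinearGroup.map (algebraMap K (v.adicCompletion K)) γ := by
  have h1 : (fun j => Matrix.GeneralLinearGroup.map
        (((i j).symm : (w j).adicCompletion K' ≃+* v.adicCompletion K) :
          (w j).adicCompletion K' →+* v.adicCompletion K)
        (Matrix.GeneralLinearGroup.map (algebraMap K' ((w j).adicCompletion K')) δ))
      = fun j => Matrix.GeneralLinearGroup.map (emb662 (i j)) δ := by
    funext j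
    exact glmap_glmap662 _ _ _
  rw [h1, ← map_normUpTo662 s hfix v w i hrel hi hv δ l 0, hN, glmap_glmap662]
  exact glmap_congr662 (fun x => emb_base662 (i 0) (hi 0) x) γ

end Split

/-! ## Appendix: the equation lemmas of the definitions of this file are realised HERE -/

theorem eqns_realised_normProd662 : True := by
  have _a1 := @emb662.eq_1
  have _a2 := @emb662.eq_def
  have _a3 := @emb662.eq_unfold
  trivial

end Fermat.Agent.LT.T7.H662

end
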