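import Mathlib
import Fermat.Agent.LT.T7.H340.FactUpSpec
import Fermat.Agent.LT.T7.H305.Match893Spec
import Fermat.Agent.LT.T7.H159.SplitIntL
import Fermat.Agent.LT.T7.H584.ConvSumInt
import Fermat.Agent.LT.T6.H584.OrbIntegrable
import Fermat.Agent.LT.T6.H420.GLTop
import Fermat.Agent.LT.T7.H662.ChainFubini
import Fermat.Agent.LT.T7.H662.NormProd
import Fermat.Agent.LT.T7.H662.FinSupp

/-!
# Row LT, tower T7, leaf C2.7.13.3 `LocEqSplitC340` (helper662; registry row 2622)

OFF-MAIN.  Complete proofs, nothing assumed.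

    locEqSplitC662     : T7.H340.LocEqSplitC340 K K'      (VERBATIM, `FactUpSpec.lean` 786596dd)
    locEqSplitC305b662 : T7.H305.LocEqSplitC305b K K'     (VERBATIM, `Match893Spec.lean` d1d042d0)

both from ONE core (`locEqSplit_core662`): at a split place, for an enumeration `w j`,
`i j : K_v ≃ K'_{w j}` for which the levels agree and the convolution identity holds, the split
integral upstairs is the local cut-off integral downstairs.

Proof.  (1) `δ_0 ⋯ δ_{l-1} = γ_v` (`NormProd.lean`: density of `K` in `K_v`, asset helper415).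
(2) The components `φ_j = φ₀_{w_j} ∘ i_j` are bi-`U(m_v)`-invariant of finite support, hence
measurable, bounded, integrable (`FinSupp.lean`).  (3) Fubini along the chain
(`ChainFubini.lean`, the split integral identity of helper159 `iterL_eq159`): the split integral
is `∫ (φ_0 * ⋯ * φ_{l-1})(y⁻¹ γ_v y) β(y) dμ(y)`, PROVIDED the orbital integrand of
`‖φ_0‖ * ⋯ * ‖φ_{l-1}‖` is integrable: the latter is bi-invariant of finite support (compact
open `U(m_v)`: helper420), it has an orbit sum (`T6.OrbSumExC`, `γ_v` regular) and the orbital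
integrand is integrable (asset helper584 `orbIntegrable584`).  (4) The convolution of T6 is the
convolution integral (asset helper584 `convL_eq_of_isConvProd584`): `φ_0 * ⋯ * φ_{l-1} = f₀_v`.
-/

set_option autoImplicit false
set_option linter.unusedSectionVars false
set_option linter.style.haveILetI false
set_option linter.unusedVariables false

open AutomorphicForm IsDedekindDomain NumberField MeasureTheory

noncomputable section

namespace Fermat.Agent.LT.T7.H662

open Fermat.Agent.LT Fermat.Agent.LT.H556 Fermat.Agent.LT.H556.A0 Fermat.Agent.LT.T7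
  Fermat.Agent.LT.T7.H305 Fermat.Agent.LT.T7.H159

/-! ## 1. Local lemmas -/

section Local

variable {k k' : Type} [Field k] [Field k'] [Valued k T6.Γ₀] [Valued k' T6.Γ₀]

theorem glmap_inv_apply662 (f : k →+* k') (g : GL (Fin 2) k) (a b : Fin 2) :
    (((Matrix.GeneralLinearGroup.map f g)⁻¹ : GL (Fin 2) k') : Matrix (Fin 2) (Fin 2) k') a b
      = f (((g⁻¹ : GL (Fin 2) k) : Matrix (Fin 2) (Fin 2) k) a b) := by
  rw [← map_inv]
  rfl

theorem one_apply_map662 (f : k →+* k') (a b : Fin 2) :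
    (1 : Matrix (Fin 2) (Fin 2) k') a b = f ((1 : Matrix (Fin 2) (Fin 2) k) a b) := by
  by_cases h : a = b
  · rw [h, Matrix.one_apply_eq, Matrix.one_apply_eq, map_one]
  · rw [Matrix.one_apply_ne h, Matrix.one_apply_ne h, map_zero]

/-- A valuation preserving isomorphism preserves the congruence subgroups. -/
theorem inU_map662 (i : k ≃+* k') (hv : ∀ x : k, Valued.v (i x) = Valued.v x) (n : ℕ)
    (g : GL (Fin 2) k) (hg : T6.InU n g) :
    T6.InU n (Matrix.GeneralLinearGroup.map (i : k →+* k') g) := by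
  intro a b
  obtain ⟨h1, h2⟩ := hg a b
  constructor
  · rw [glmap_apply662, one_apply_map662 (i : k →+* k') a b, ← map_sub]
    show Valued.v (i _) ≤ _
    rw [hv]
    exact h1
  · rw [glmap_inv_apply662, one_apply_map662 (i : k →+* k') a b, ← map_sub]
    show Valued.v (i _) ≤ _
    rw [hv]
    exact h2

theorem glmap_symm_map662 (i : k ≃+* k') (g : GL (Fin 2) k) :
    Matrix.GeneralLinearGroup.map ((i.symm : k' ≃+* k) : k' →+* k)
      (Matrix.GeneralLinearGroup.map (i : k →+* k') g) = g := by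
  apply Units.ext
  ext a b
  show i.symm (i ((g : Matrix (Fin 2) (Fin 2) k) a b)) = _
  rw [RingEquiv.symm_apply_apply]

theorem glAut_refl662 (g : GL (Fin 2) k) : T6.glAut (RingEquiv.refl k) g = g := by
  apply Units.ext
  ext a b
  rfl

theorem twNorm_one662 (s : k ≃+* k) (δ : GL (Fin 2) k) : T6.twNorm s 1 δ = δ := by
  show δ * T6.glAut s 1 = δ
  rw [map_one, mul_one]

/-- The trivial extension of local fields. -/
theorem isLocalExt_refl662 : T6.IsLocalExt k k 1 1 (RingHom.id k) (RingEquiv.refl k) where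
  cyc :=
    { pos := Nat.one_pos
      fix_i := fun _ => rfl
      fixed := fun y _ => ⟨y, rfl⟩
      order := fun _ => rfl
      faithful := fun m h1 h2 => absurd h1 (by omega) }
  e_pos := Nat.one_pos
  val_i := fun x => (pow_one _).symm
  val_s := fun _ => rfl

end Local

section Disc

variable {k k' : Type} [Field k] [Field k']

theorem disc_map662 (f : k →+* k') (g : GL (Fin 2) k) :
    T6.disc (Matrix.GeneralLinearGroup.map f g) = f (T6.disc g) := by
  show ((Matrix.GeneralLinearGroup.map f g : GL (Fin 2) k') : Matrix (Fin 2) (Fin 2) k').trace ^ 2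
      - 4 * ((Matrix.GeneralLinearGroup.map f g : GL (Fin 2) k') :
          Matrix (Fin 2) (Fin 2) k').det
    = f ((g : Matrix (Fin 2) (Fin 2) k).trace ^ 2 - 4 * (g : Matrix (Fin 2) (Fin 2) k).det)
  rw [Matrix.trace_fin_two, Matrix.det_fin_two, Matrix.trace_fin_two, Matrix.det_fin_two]
  simp only [glmap_apply662, map_sub, map_mul, map_add, map_pow, map_ofNat]

theorem isReg_map662 (f : k →+* k') (g : GL (Fin 2) k) (hg : T6.IsReg g) :
    T6.IsReg (Matrix.GeneralLinearGroup.map f g) := by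
  show IsUnit (T6.disc (Matrix.GeneralLinearGroup.map f g))
  rw [disc_map662]
  exact IsUnit.map f hg

end Disc

/-! ## 2. The core -/

section Core

variable {K K' : Type} [Field K] [NumberField K] [Field K'] [NumberField K'] [Algebra K K']

theorem instLocal_of_T6Out662 (h : T6.T6Out) : T6.InstLocalC := h.2.2.2.2.2.1

theorem orbSumEx_of_T6Out662 (h : T6.T6Out) : T6.OrbSumExC := h.2.2.2.2.2.2.2.2.1

/-- **THE CORE**: the split integral upstairs is the local cut-off integral downstairs. -/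
theorem locEqSplit_core662 (hT6 : T6.T6Out) (D : CompData K K') (hD : IsCompData D)
    (n : HeightOneSpectrum (𝓞 K') → ℕ) (m : HeightOneSpectrum (𝓞 K) → ℕ)
    (φ₀ : ∀ w : HeightOneSpectrum (𝓞 K'), GL (Fin 2) (w.adicCompletion K') → ℂ)
    (f₀ : ∀ v : HeightOneSpectrum (𝓞 K), GL (Fin 2) (v.adicCompletion K) → ℂ)
    (δ : GL (Fin 2) K') (γ : GL (Fin 2) K) (hEll : T6.IsEll γ)
    (hN : D.s.normUpTo D.l δ = Matrix.GeneralLinearGroup.map (algebraMap K K') γ)
    (L : LocData305 K γ) (hL : IsLocData305 m L)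
    (v : HeightOneSpectrum (𝓞 K)) (hl : 0 < D.l) (w : ℕ → HeightOneSpectrum (𝓞 K'))
    (i : ∀ j : ℕ, v.adicCompletion K ≃+* (w j).adicCompletion K')
    (hrel : ∀ j : ℕ, T5.PlaceRel D.s (w (j + 1)) (w j))
    (hi : ∀ (j : ℕ) (x : K), i j (algebraMap K (v.adicCompletion K) x)
      = algebraMap K' ((w j).adicCompletion K') (algebraMap K K' x))
    (hv : ∀ (j : ℕ) (x : v.adicCompletion K), Valued.v (i j x) = Valued.v x)
    (hup : ∀ j : ℕ, T6.IsBiInv (T6.InU (n (w j))) (φ₀ (w j)) ∧
      T6.HasFinSupp (T6.InU (n (w j))) (φ₀ (w j)))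
    (hlev : ∀ j : ℕ, n (w j) = m v)
    (hconv : T6.IsConvProd (T6.InU (m v)) D.l
      (fun j g => φ₀ (w j)
        (Matrix.GeneralLinearGroup.map ((i j : v.adicCompletion K ≃+* _) :
          v.adicCompletion K →+* (w j).adicCompletion K') g))
      (f₀ v)) :
    H340.splitInt340 D.l hl (L.μv v) (L.βv v)
        (fun j g => φ₀ (w j)
          (Matrix.GeneralLinearGroup.map ((i j : v.adicCompletion K ≃+* _) :
            v.adicCompletion K →+* (w j).adicCompletion K') g))
        (fun j => Matrix.GeneralLinearGroup.map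
          (((i j).symm : (w j).adicCompletion K' ≃+* _) :
            (w j).adicCompletion K' →+* v.adicCompletion K) (locG305 (w j) δ))
      = locInt305 (L.μv v) (L.βv v) (f₀ v) (locG305 v γ) := by
  classical
  -- the local field and the group
  have hk : T6.IsLocalField (v.adicCompletion K) (Ideal.absNorm v.asIdeal) :=
    instLocal_of_T6Out662 hT6 K v
  obtain ⟨ϖ, hϖ⟩ := hk.unif
  letI : MeasurableSpace (GL (Fin 2) (v.adicCompletion K)) := borel _
  haveI : BorelSpace (GL (Fin 2) (v.adicCompletion K)) := ⟨rfl⟩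
  haveI : SecondCountableTopology (GL (Fin 2) (v.adicCompletion K)) :=
    T6.H584.secondCountable_GL584 hk
  haveI : LocallyCompactSpace (GL (Fin 2) (v.adicCompletion K)) :=
    T6.H420.locallyCompactSpace_GL hk
  haveI : SigmaCompactSpace (GL (Fin 2) (v.adicCompletion K)) := T6.H420.sigmaCompactSpace_GL hk
  -- the measure
  obtain ⟨hμH, hμU⟩ := hL.haar v
  haveI : (L.μv v).IsHaarMeasure := hμH
  set μ : Measure (GL (Fin 2) (v.adicCompletion K)) := L.μv v with hμ
  set U : Subgroup (GL (Fin 2) (v.adicCompletion K)) := T6.H420.subU (m v) with hU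
  have hUo : IsOpen (U : Set (GL (Fin 2) (v.adicCompletion K))) := T6.H420.isOpen_subU hϖ (m v)
  have hUc : IsCompact (U : Set (GL (Fin 2) (v.adicCompletion K))) :=
    T6.H420.isCompact_subU hk (m v)
  have hμU' : μ (U : Set (GL (Fin 2) (v.adicCompletion K))) = 1 := hμU
  -- the components
  set φ : ℕ → GL (Fin 2) (v.adicCompletion K) → ℂ := fun j g => φ₀ (w j)
    (Matrix.GeneralLinearGroup.map ((i j : v.adicCompletion K ≃+* _) :
      v.adicCompletion K →+* (w j).adicCompletion K') g) with hφdef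
  have hφbi : ∀ j, T6.IsBiInv (fun g => g ∈ U) (φ j) := by
    intro j u u' g hu hu'
    show φ₀ (w j) (Matrix.GeneralLinearGroup.map _ (u * g * u'))
      = φ₀ (w j) (Matrix.GeneralLinearGroup.map _ g)
    rw [map_mul, map_mul]
    refine (hup j).1 _ _ _ ?_ ?_
    · rw [hlev j]
      exact inU_map662 (i j) (hv j) (m v) u hu
    · rw [hlev j]
      exact inU_map662 (i j) (hv j) (m v) u' hu'
  have hφfs : ∀ j, T6.HasFinSupp (fun g => g ∈ U) (φ j) := by
    intro j
    obtain ⟨F, hF⟩ := (hup j).2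
    refine ⟨F.image (Matrix.GeneralLinearGroup.map
      (((i j).symm : (w j).adicCompletion K' ≃+* _) :
        (w j).adicCompletion K' →+* v.adicCompletion K)), fun g hg => ?_⟩
    obtain ⟨x, hx, u, hu, hxu⟩ := hF _ hg
    refine ⟨_, Finset.mem_image_of_mem _ hx, Matrix.GeneralLinearGroup.map
      (((i j).symm : (w j).adicCompletion K' ≃+* _) :
        (w j).adicCompletion K' →+* v.adicCompletion K) u, ?_, ?_⟩
    · rw [hlev j] at hu
      exact inU_map662 (i j).symm (valued_symm662 (i j) (hv j)) (m v) u hu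
    · rw [← map_mul, ← hxu, glmap_symm_map662]
  -- goodness
  have hgood : ∀ j, IsGood662 μ (φ j) := fun j =>
    isGood_of_finSupp662 U hUo μ hμU' (rightInv_of_biInv662 U (hφbi j)) (hφfs j)
  -- the convolution
  have hUV : H584.IsUnitVol584 μ (fun g => g ∈ U) :=
    { one := U.one_mem
      mul := fun a b ha hb => U.mul_mem ha hb
      inv := fun a ha => U.inv_mem ha
      meas := hUo.measurableSet
      vol := hμU' }
  have hf : f₀ v = convL159 μ φ (D.l - 1) :=
    H584.convL_eq_of_isConvProd584 hUV D.l φ (f₀ v) hφbi hconv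
  -- the norm
  have hfix : ∀ x : K, D.s.σ (algebraMap K K' x) = algebraMap K K' x := fun x =>
    (hD.cyc.fixed _).1 ((hD.base _).2 ⟨x, rfl⟩)
  set δ' : ℕ → GL (Fin 2) (v.adicCompletion K) := fun j => Matrix.GeneralLinearGroup.map
    (((i j).symm : (w j).adicCompletion K' ≃+* _) :
      (w j).adicCompletion K' →+* v.adicCompletion K) (locG305 (w j) δ) with hδ'
  have hprod : prodFrom159 δ' D.l 0 = locG305 v γ :=
    prodFrom_eq662 D.s hfix v w i hrel hi hv δ γ D.l hN
  -- the cut-off
  obtain ⟨hβc, hβ0, hβ1⟩ := hL.cut v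
  obtain ⟨hμT, hμTc⟩ := hL.tor v
  -- integrability of the orbital integrand of the convolution of the norms
  set Ψ : ℕ → GL (Fin 2) (v.adicCompletion K) → ℂ := fun j g => ((‖φ j g‖ : ℝ) : ℂ) with hΨ
  have hΨbi : ∀ j, T6.IsBiInv (fun g => g ∈ U) (Ψ j) := fun j => biInv_norm662 U (hφbi j)
  have hΨfs : ∀ j, T6.HasFinSupp (fun g => g ∈ U) (Ψ j) := fun j => finSupp_norm662 U (hφfs j)
  have hGbi : T6.IsBiInv (T6.InU (m v)) (convL159 μ Ψ (D.l - 1)) :=
    convL_biInv662 U μ hΨbi (D.l - 1)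
  have hGfs : T6.HasFinSupp (T6.InU (m v)) (convL159 μ Ψ (D.l - 1)) :=
    convL_finSupp662 U hUo hUc μ hΨfs (D.l - 1)
  have hreg : T6.IsReg (T6.twNorm (RingEquiv.refl (v.adicCompletion K)) 1 (locG305 v γ)) := by
    rw [twNorm_one662]
    exact isReg_map662 _ γ hEll.1
  have hk1 : T6.IsLocalField (v.adicCompletion K) (Ideal.absNorm v.asIdeal ^ (1 / 1)) := by
    have e : Ideal.absNorm v.asIdeal ^ (1 / 1) = Ideal.absNorm v.asIdeal := by norm_num
    rw [e]
    exact hk
  obtain ⟨c, hc⟩ := orbSumEx_of_T6Out662 hT6 (v.adicCompletion K) (v.adicCompletion K)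
    (Ideal.absNorm v.asIdeal) 1 1 (RingHom.id _) (RingEquiv.refl _) hk hk1 isLocalExt_refl662
    (m v) (convL159 μ Ψ (D.l - 1)) hGbi hGfs (locG305 v γ) hreg
  have hint0 := T6.H584.orbIntegrable584 (v.adicCompletion K) (Ideal.absNorm v.asIdeal) 1
    (RingEquiv.refl _) hk (fun _ => rfl) Nat.one_pos (fun _ => rfl) (m v)
    (convL159 μ Ψ (D.l - 1)) hGbi hGfs (locG305 v γ) c hreg hc (L.μv v) hμH hμU (L.μt v) hμT hμTc
    (L.βv v) hβc hβ0 hβ1
  have hI : Integrable (fun y : GL (Fin 2) (v.adicCompletion K) =>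
      convL159 μ Ψ (D.l - 1) (y⁻¹ * prodFrom159 δ' D.l 0 * y) * ((L.βv v y : ℝ) : ℂ)) μ := by
    rw [hprod]
    have e : (fun y : GL (Fin 2) (v.adicCompletion K) =>
        convL159 μ Ψ (D.l - 1) (y⁻¹ * locG305 v γ * y) * ((L.βv v y : ℝ) : ℂ))
        = fun x : GL (Fin 2) (v.adicCompletion K) =>
          convL159 μ Ψ (D.l - 1) (x⁻¹ * locG305 v γ * T6.glAut (RingEquiv.refl _) x)
            * ((L.βv v x : ℝ) : ℂ) := by
      funext y
      rw [glAut_refl662]
    rw [e]
    exact hint0
  -- Fubini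
  have hfub := split_fubini662 μ φ hgood δ' D.l hl (L.βv v) hβc.measurable hI
  rw [hprod] at hfub
  show (∫ y : Fin D.l → GL (Fin 2) (v.adicCompletion K),
      (∏ j : Fin D.l, φ j.1 ((y j)⁻¹ * δ' j.1 * y (H340.cycSucc340 j)))
        * ((L.βv v (y ⟨0, hl⟩) : ℝ) : ℂ) ∂(Measure.pi fun _ : Fin D.l => μ))
    = ∫ y : GL (Fin 2) (v.adicCompletion K),
        f₀ v (y⁻¹ * locG305 v γ * y) * ((L.βv v y : ℝ) : ℂ) ∂μ
  rw [hf]
  exact hfub

end Core

/-! ## 3. The leaves -/

section Leaves

variable (K K' : Type) [Field K] [NumberField K] [Field K'] [NumberField K'] [Algebra K K']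

/-- **LEAF C2.7.13.3 = LOC-EQ-SPLIT**, VERBATIM (helper340 `FactUpSpec.lean`). -/
theorem locEqSplitC662 : H340.LocEqSplitC340 K K' := by
  intro hT6 D hD _ _ _ μc S n m φ₀ Φ f₀ F hLoc δ γ hEll hN L hL v hvS J hJ
  obtain ⟨hl, w, i, hover, hrel, hne, hi, hv, rfl⟩ := hJ
  obtain ⟨hlev, hconv⟩ := hLoc.split v hvS w i hover hrel hne hi hv
  exact locEqSplit_core662 hT6 D hD n m φ₀ f₀ δ γ hEll hN L hL v hl w i hrel hi hv
    (fun j => hLoc.inv_up v hvS (w j) (hover j)) hlev hconv

/-- **LEAF C2.7.13.3b = LOC-EQ-SPLIT for ONE enumeration**, VERBATIM (helper305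
`Match893Spec.lean`). -/
theorem locEqSplitC305b662 : H305.LocEqSplitC305b K K' := by
  intro hT6 D hD _ _ _ μc S n m φ₀ Φ f₀ F hLoc δ γ hEll hN L hL v hvS J hJ
  obtain ⟨hl, w, i, hover, hrel, hne, hi, hv, hlev, hconv, rfl⟩ := hJ
  exact locEqSplit_core662 hT6 D hD n m φ₀ f₀ δ γ hEll hN L hL v hl w i hrel hi hv
    (fun j => hLoc.inv_up v hvS (w j) (hover j)) hlev hconv

end Leaves

end Fermat.Agent.LT.T7.H662

end
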