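import Mathlib
import Fermat.Agent.LT.T7.H662.LocEqSplit

/-!
# Row LT, tower T7, leaf C2.7.13.3 `LocEqSplit` (helper662): THE CORE WITH EXPLICIT LOCAL DATA

OFF-MAIN.  Complete proofs, nothing assumed.  ADDITIVE: `LocEqSplit.lean` is unchanged.

`locEqSplit_gen662` = the core `locEqSplit_core662` of `LocEqSplit.lean` with the local Haar
measure, the measure of the centraliser and the cut-off function at `v` as explicit data
(instead of `H305.LocData305`), so that it serves every form of the local data (the cyclic step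
AND the step `F / ℚ`: `MQ298.LocDataQ298`).  Same proof.
-/

set_option autoImplicit false
set_option linter.unusedSectionVars false
set_option linter.style.haveILetI false
set_option linter.unusedVariables false

open AutomorphicForm IsDedekindDomain NumberField MeasureTheory

noncomputable section

namespace Fermat.Agent.LT.T7.H662

open Fermat.Agent.LT Fermat.Agent.LT.H556 Fermat.Agent.LT.H556.A0 Fermat.Agent.LT.T7
  Fermat.Agent.LT.T7.H305 Fermat.Agent.LT.T7.H159

section Core

variable {K K' : Type} [Field K] [NumberField K] [Field K'] [NumberField K'] [Algebra K K']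

/-- **THE CORE, explicit local data**: the split integral upstairs is the local cut-off integral
downstairs (`μ₀`, `μt`, `β`: the local Haar measure, the measure of the centraliser and the
cut-off function at `v`). -/
theorem locEqSplit_gen662 (hT6 : T6.T6Out) (D : CompData K K') (hD : IsCompData D)
    (n : HeightOneSpectrum (𝓞 K') → ℕ) (m : HeightOneSpectrum (𝓞 K) → ℕ)
    (φ₀ : ∀ w : HeightOneSpectrum (𝓞 K'), GL (Fin 2) (w.adicCompletion K') → ℂ)
    (f₀ : ∀ v : HeightOneSpectrum (𝓞 K), GL (Fin 2) (v.adicCompletion K) → ℂ)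
    (δ : GL (Fin 2) K') (γ : GL (Fin 2) K) (hEll : T6.IsEll γ)
    (hN : D.s.normUpTo D.l δ = Matrix.GeneralLinearGroup.map (algebraMap K K') γ)
    (v : HeightOneSpectrum (𝓞 K))
    (μ₀ : @Measure (GL (Fin 2) (v.adicCompletion K)) (borel _))
    (μt : @Measure (T6.twCentSub (T6.glAut (RingEquiv.refl (v.adicCompletion K)))
      (locG305 v γ)) (borel _))
    (β : GL (Fin 2) (v.adicCompletion K) → ℝ)
    (hhaar : IsLocHaar305 (m v) μ₀)
    (htor : IsLocTor305 (RingEquiv.refl (v.adicCompletion K)) (locG305 v γ) μt)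
    (hcut : IsLocCut305 (RingEquiv.refl (v.adicCompletion K)) (locG305 v γ) μt β)
    (hl : 0 < D.l) (w : ℕ → HeightOneSpectrum (𝓞 K'))
    (i : ∀ j : ℕ, v.adicCompletion K ≃+* (w j).adicCompletion K')
    (hrel : ∀ j : ℕ, T5.PlaceRel D.s (w (j + 1)) (w j))
    (hi : ∀ (j : ℕ) (x : K), i j (algebraMap K (v.adicCompletion K) x)
      = algebraMap K' ((w j).adicCompletion K') (algebraMap K K' x))
    (hv : ∀ (j : ℕ) (x : v.adicCompletion K), Valued.v (i j x) = Valued.v x)
    (hup : ∀ j : ℕ, T6.IsBiInv (T6.InU (n (w j))) (φ₀ (w j)) ∧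
      T6.HasFinSupp (T6.InU (n (w j))) (φ₀ (w j)))
    (hlev : ∀ j : ℕ, n (w j) = m v)
    (hconv : T6.IsConvProd (T6.InU (m v)) D.l
      (fun j g => φ₀ (w j)
        (Matrix.GeneralLinearGroup.map ((i j : v.adicCompletion K ≃+* _) :
          v.adicCompletion K →+* (w j).adicCompletion K') g))
      (f₀ v)) :
    H340.splitInt340 D.l hl μ₀ β
        (fun j g => φ₀ (w j)
          (Matrix.GeneralLinearGroup.map ((i j : v.adicCompletion K ≃+* _) :
            v.adicCompletion K →+* (w j).adicCompletion K') g))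
        (fun j => Matrix.GeneralLinearGroup.map
          (((i j).symm : (w j).adicCompletion K' ≃+* _) :
            (w j).adicCompletion K' →+* v.adicCompletion K) (locG305 (w j) δ))
      = locInt305 μ₀ β (f₀ v) (locG305 v γ) := by
  classical
  -- the local field and the group
  have hk : T6.IsLocalField (v.adicCompletion K) (Ideal.absNorm v.asIdeal) :=
    instLocal_of_T6Out662 hT6 K v
  obtain ⟨ϖ, hϖ⟩ := hk.unif
  letI : MeasurableSpace (GL (Fin 2) (v.adicCompletion K)) := borel _
  haveI : BorelSpace (GL (Fin 2) (v.adicCompletion K)) := ⟨rfl⟩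
  haveI : SecondCountableTopology (GL (Fin 2) (v.adicCompletion K)) :=
    T6.H584.secondCountable_GL584 hk
  haveI : LocallyCompactSpace (GL (Fin 2) (v.adicCompletion K)) :=
    T6.H420.locallyCompactSpace_GL hk
  haveI : SigmaCompactSpace (GL (Fin 2) (v.adicCompletion K)) := T6.H420.sigmaCompactSpace_GL hk
  -- the measure
  obtain ⟨hμH, hμU⟩ := hhaar
  haveI : μ₀.IsHaarMeasure := hμH
  set μ : Measure (GL (Fin 2) (v.adicCompletion K)) := μ₀ with hμ
  set U : Subgroup (GL (Fin 2) (v.adicCompletion K)) := T6.H420.subU (m v) with hU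
  have hUo : IsOpen (U : Set (GL (Fin 2) (v.adicCompletion K))) := T6.H420.isOpen_subU hϖ (m v)
  have hUc : IsCompact (U : Set (GL (Fin 2) (v.adicCompletion K))) :=
    T6.H420.isCompact_subU hk (m v)
  have hμU' : μ (U : Set (GL (Fin 2) (v.adicCompletion K))) = 1 := hμU
  -- the components
  set φ : ℕ → GL (Fin 2) (v.adicCompletion K) → ℂ := fun j g => φ₀ (w j)
    (Matrix.GeneralLinearGroup.map ((i j : v.adicCompletion K ≃+* _) :
      v.adicCompletion K →+* (w j).adicCompletion K') g) with hφdef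
  have hφbi : ∀ j, T6.IsBiInv (fun g => g ∈ U) (φ j) := by
    intro j u u' g hu hu'
    show φ₀ (w j) (Matrix.GeneralLinearGroup.map _ (u * g * u'))
      = φ₀ (w j) (Matrix.GeneralLinearGroup.map _ g)
    rw [map_mul, map_mul]
    refine (hup j).1 _ _ _ ?_ ?_
    · rw [hlev j]
      exact inU_map662 (i j) (hv j) (m v) u hu
    · rw [hlev j]
      exact inU_map662 (i j) (hv j) (m v) u' hu'
  have hφfs : ∀ j, T6.HasFinSupp (fun g => g ∈ U) (φ j) := by
    intro j
    obtain ⟨F, hF⟩ := (hup j).2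
    refine ⟨F.image (Matrix.GeneralLinearGroup.map
      (((i j).symm : (w j).adicCompletion K' ≃+* _) :
        (w j).adicCompletion K' →+* v.adicCompletion K)), fun g hg => ?_⟩
    obtain ⟨x, hx, u, hu, hxu⟩ := hF _ hg
    refine ⟨_, Finset.mem_image_of_mem _ hx, Matrix.GeneralLinearGroup.map
      (((i j).symm : (w j).adicCompletion K' ≃+* _) :
        (w j).adicCompletion K' →+* v.adicCompletion K) u, ?_, ?_⟩
    · rw [hlev j] at hu
      exact inU_map662 (i j).symm (valued_symm662 (i j) (hv j)) (m v) u hu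
    · rw [← map_mul, ← hxu, glmap_symm_map662]
  -- goodness
  have hgood : ∀ j, IsGood662 μ (φ j) := fun j =>
    isGood_of_finSupp662 U hUo μ hμU' (rightInv_of_biInv662 U (hφbi j)) (hφfs j)
  -- the convolution
  have hUV : H584.IsUnitVol584 μ (fun g => g ∈ U) :=
    { one := U.one_mem
      mul := fun a b ha hb => U.mul_mem ha hb
      inv := fun a ha => U.inv_mem ha
      meas := hUo.measurableSet
      vol := hμU' }
  have hf : f₀ v = convL159 μ φ (D.l - 1) :=
    H584.convL_eq_of_isConvProd584 hUV D.l φ (f₀ v) hφbi hconv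
  -- the norm
  have hfix : ∀ x : K, D.s.σ (algebraMap K K' x) = algebraMap K K' x := fun x =>
    (hD.cyc.fixed _).1 ((hD.base _).2 ⟨x, rfl⟩)
  set δ' : ℕ → GL (Fin 2) (v.adicCompletion K) := fun j => Matrix.GeneralLinearGroup.map
    (((i j).symm : (w j).adicCompletion K' ≃+* _) :
      (w j).adicCompletion K' →+* v.adicCompletion K) (locG305 (w j) δ) with hδ'
  have hprod : prodFrom159 δ' D.l 0 = locG305 v γ :=
    prodFrom_eq662 D.s hfix v w i hrel hi hv δ γ D.l hN
  -- the cut-off
  obtain ⟨hβc, hβ0, hβ1⟩ := hcut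
  obtain ⟨hμT, hμTc⟩ := htor
  -- integrability of the orbital integrand of the convolution of the norms
  set Ψ : ℕ → GL (Fin 2) (v.adicCompletion K) → ℂ := fun j g => ((‖φ j g‖ : ℝ) : ℂ) with hΨ
  have hΨbi : ∀ j, T6.IsBiInv (fun g => g ∈ U) (Ψ j) := fun j => biInv_norm662 U (hφbi j)
  have hΨfs : ∀ j, T6.HasFinSupp (fun g => g ∈ U) (Ψ j) := fun j => finSupp_norm662 U (hφfs j)
  have hGbi : T6.IsBiInv (T6.InU (m v)) (convL159 μ Ψ (D.l - 1)) :=
    convL_biInv662 U μ hΨbi (D.l - 1)
  have hGfs : T6.HasFinSupp (T6.InU (m v)) (convL159 μ Ψ (D.l - 1)) :=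
    convL_finSupp662 U hUo hUc μ hΨfs (D.l - 1)
  have hreg : T6.IsReg (T6.twNorm (RingEquiv.refl (v.adicCompletion K)) 1 (locG305 v γ)) := by
    rw [twNorm_one662]
    exact isReg_map662 _ γ hEll.1
  have hk1 : T6.IsLocalField (v.adicCompletion K) (Ideal.absNorm v.asIdeal ^ (1 / 1)) := by
    have e : Ideal.absNorm v.asIdeal ^ (1 / 1) = Ideal.absNorm v.asIdeal := by norm_num
    rw [e]
    exact hk
  obtain ⟨c, hc⟩ := orbSumEx_of_T6Out662 hT6 (v.adicCompletion K) (v.adicCompletion K)
    (Ideal.absNorm v.asIdeal) 1 1 (RingHom.id _) (RingEquiv.refl _) hk hk1 isLocalExt_refl662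
    (m v) (convL159 μ Ψ (D.l - 1)) hGbi hGfs (locG305 v γ) hreg
  have hint0 := T6.H584.orbIntegrable584 (v.adicCompletion K) (Ideal.absNorm v.asIdeal) 1
    (RingEquiv.refl _) hk (fun _ => rfl) Nat.one_pos (fun _ => rfl) (m v)
    (convL159 μ Ψ (D.l - 1)) hGbi hGfs (locG305 v γ) c hreg hc μ₀ hμH hμU μt hμT hμTc
    β hβc hβ0 hβ1
  have hI : Integrable (fun y : GL (Fin 2) (v.adicCompletion K) =>
      convL159 μ Ψ (D.l - 1) (y⁻¹ * prodFrom159 δ' D.l 0 * y) * ((β y : ℝ) : ℂ)) μ := by
    rw [hprod]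
    have e : (fun y : GL (Fin 2) (v.adicCompletion K) =>
        convL159 μ Ψ (D.l - 1) (y⁻¹ * locG305 v γ * y) * ((β y : ℝ) : ℂ))
        = fun x : GL (Fin 2) (v.adicCompletion K) =>
          convL159 μ Ψ (D.l - 1) (x⁻¹ * locG305 v γ * T6.glAut (RingEquiv.refl _) x)
            * ((β x : ℝ) : ℂ) := by
      funext y
      rw [glAut_refl662]
    rw [e]
    exact hint0
  -- Fubini
  have hfub := split_fubini662 μ φ hgood δ' D.l hl β hβc.measurable hI
  rw [hprod] at hfub
  show (∫ y : Fin D.l → GL (Fin 2) (v.adicCompletion K),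
      (∏ j : Fin D.l, φ j.1 ((y j)⁻¹ * δ' j.1 * y (H340.cycSucc340 j)))
        * ((β (y ⟨0, hl⟩) : ℝ) : ℂ) ∂(Measure.pi fun _ : Fin D.l => μ))
    = ∫ y : GL (Fin 2) (v.adicCompletion K),
        f₀ v (y⁻¹ * locG305 v γ * y) * ((β y : ℝ) : ℂ) ∂μ
  rw [hf]
  exact hfub

end Core

end Fermat.Agent.LT.T7.H662

end
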