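import Mathlib
import Fermat.Agent.LT.T7.H514.FactUpQCore
import Fermat.Agent.LT.T7.H662.LocEqSplitGen

/-!
# Row LT, tower T7, step `F / ℚ`, leaf Q2.7.13.3c `LocEqSplitQL514` (helper662, spare of
# registry row 2710)

OFF-MAIN.  Complete proofs, nothing assumed.

    locEqSplitQL514_662 : T7.FUQ514.LocEqSplitQL514 F     (VERBATIM, `H514/FactUpQCore.lean`,
                                                           helper514)

from the core with explicit local data `locEqSplit_gen662` (`LocEqSplitGen.lean`), `K = ℚ`.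
-/

set_option autoImplicit false
set_option linter.unusedVariables false

open AutomorphicForm IsDedekindDomain NumberField MeasureTheory

noncomputable section

namespace Fermat.Agent.LT.T7.H662

open Fermat.Agent.LT Fermat.Agent.LT.T7

/-- **LEAF Q2.7.13.3c = LOC-EQ-SPLIT over `ℚ`, LOCAL FORM**, VERBATIM (helper514). -/
theorem locEqSplitQL514_662 (F : Type) [Field F] [NumberField F] :
    FUQ514.LocEqSplitQL514 F := by
  intro hT6 _ D hD _ _ n m φ₀ f₀ δ γ hEll hN L hL v _ hup J hJ
  obtain ⟨hl, w, i, hover, hrel, hne, hi, hv, hlev, hconv, rfl⟩ := hJ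
  exact locEqSplit_gen662 hT6 D hD n m φ₀ f₀ δ γ hEll hN v (L.μv v) (L.μt v) (L.βv v)
    (hL.haar v) (hL.tor v) (hL.cut v) hl w i hrel hi hv
    (fun j => hup (w j) (hover j)) hlev hconv

end Fermat.Agent.LT.T7.H662

end
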